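import Mathlib
import Fermat.Agent.LT.T5.Spec
import Fermat.Agent.LT.T5.H415.AutT5
import Fermat.Agent.LT.H942.AdelicComp
import Fermat.Agent.LT.H942.NormMap

/-!
# Row LT, tower T5, leaf T5.09 (shadow by helper942) — part 1: the adelic norm `N(g)`

OFF-MAIN.  Vocabulary: `LT/T5/Spec.lean` v4 (helper32@eb7e4c138, sha256 f2d97e70, byte-identical
copy; the statement of T5.09 is unchanged since v2), `LT/H556/A0.lean` (66d3374a), structural facts on `AdelicAut`: `LT/T5/H415/AutT5.lean`
(helper415@b9878c8ad, byte-identical copies).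

* `normG942 s n g = g · σ(g) ⋯ σ^{n-1}(g)` on `GL₂(𝔸_K)` (same recursion as `s.normUpTo`);
* `onG_ratG942` : `σ(γ) = ratG (σ γ)` for rational `γ`;
* `normG_conj942` : `N_n(x⁻¹ δ σ(x)) = x⁻¹ N_n(δ) σⁿ(x)`;
* `IsScalarG942` : scalar matrices of `GL₂(𝔸_K)`; `isScalarG_of_centralRay942`;
  `normG_mul_scalar942` : `N_n(y z) = N_n(y) · Z` with `Z` scalar, for `z` scalar;
* `normG_twisted942` : for `IsCyclicOfDegree s l k` and `z` on the central ray,
  `N_l(x⁻¹ δ σ(x) z) = x⁻¹ N_l(δ) x · Z`, `Z` scalar;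
* `continuous_onG942`, `continuous_normG942`;
* `coe_normUpTo942` : the matrix of `s.normUpTo n δ` is `normMat σ n δ` of `NormMap.lean`, hence
  `trace_normUpTo_fixed942`, `det_normUpTo_fixed942` (trace and determinant of `N(δ)` are
  `σ`-fixed).
-/

set_option autoImplicit false

open IsDedekindDomain NumberField

noncomputable section

namespace Fermat.Agent.LT.T5.H942

open Fermat.Agent.LT.H556.A0 Fermat.Agent.LT.T5 Fermat.Agent.LT.H942

variable {K : Type} [Field K] [NumberField K]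

/-- `T5.ratG` is the diagonal embedding of `AdelicComp.lean`. -/
theorem ratG_eq_rat942 (γ : GL (Fin 2) K) : (ratG γ : G K) = rat942 γ := rfl

/-- `g · σ(g) ⋯ σ^{n-1}(g)` on `GL₂(𝔸_K)`. -/
def normG942 (s : AdelicAut K) : ℕ → G K → G K
  | 0, _ => 1
  | n + 1, g => g * s.onG (normG942 s n g)

@[simp] theorem normG942_zero (s : AdelicAut K) (g : G K) : normG942 s 0 g = 1 := rfl

theorem normG942_succ (s : AdelicAut K) (n : ℕ) (g : G K) :
    normG942 s (n + 1) g = g * s.onG (normG942 s n g) := rfl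

theorem onG_ratG942 (s : AdelicAut K) (γ : GL (Fin 2) K) :
    s.onG (ratG γ) = ratG (s.onRat γ) := by
  apply Units.ext
  ext i j
  exact s.compat _

theorem normUpTo_zero942 (s : AdelicAut K) (δ : GL (Fin 2) K) : s.normUpTo 0 δ = 1 := rfl

theorem normUpTo_succ942 (s : AdelicAut K) (n : ℕ) (δ : GL (Fin 2) K) :
    s.normUpTo (n + 1) δ = δ * s.onRat (s.normUpTo n δ) := rfl

/-- `N_n(x⁻¹ δ σ(x)) = x⁻¹ N_n(δ) σⁿ(x)`. -/
theorem normG_conj942 (s : AdelicAut K) (x : G K) (δ : GL (Fin 2) K) (n : ℕ) :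
    normG942 s n (x⁻¹ * ratG δ * s.onG x)
      = x⁻¹ * ratG (s.normUpTo n δ) * (⇑s.onG)^[n] x := by
  induction n with
  | zero => simp [normUpTo_zero942]
  | succ n ih =>
    rw [normG942_succ, ih, normUpTo_succ942, Function.iterate_succ_apply']
    simp only [map_mul, map_inv, onG_ratG942]
    group

/-! ## Scalar matrices -/

/-- `g` is a scalar matrix of `GL₂(𝔸_K)`. -/
def IsScalarG942 (g : G K) : Prop :=
  ∃ ζ : Adl K, (g : Matrix (Fin 2) (Fin 2) (Adl K)) = Matrix.diagonal fun _ => ζ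

theorem IsScalarG942.commute {z : G K} (hz : IsScalarG942 z) (g : G K) : z * g = g * z := by
  obtain ⟨ζ, hζ⟩ := hz
  apply Units.ext
  rw [Units.val_mul, Units.val_mul, hζ]
  ext i j
  simp [Matrix.diagonal_mul, Matrix.mul_diagonal, mul_comm]

theorem IsScalarG942.mul {z z' : G K} (hz : IsScalarG942 z) (hz' : IsScalarG942 z') :
    IsScalarG942 (z * z') := by
  obtain ⟨ζ, hζ⟩ := hz
  obtain ⟨ζ', hζ'⟩ := hz'
  refine ⟨ζ * ζ', ?_⟩
  rw [Units.val_mul, hζ, hζ', Matrix.diagonal_mul_diagonal]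

theorem isScalarG_one942 : IsScalarG942 (1 : G K) :=
  ⟨1, by rw [Units.val_one]; exact (Matrix.diagonal_one).symm⟩

theorem IsScalarG942.onG {z : G K} (hz : IsScalarG942 z) (s : AdelicAut K) :
    IsScalarG942 (s.onG z) := by
  obtain ⟨ζ, hζ⟩ := hz
  refine ⟨s.σA ζ, ?_⟩
  ext i j
  have h : (s.onG z : Matrix (Fin 2) (Fin 2) (Adl K)) i j
      = s.σA ((z : Matrix (Fin 2) (Fin 2) (Adl K)) i j) := rfl
  rw [h, hζ]
  by_cases hij : i = j
  · subst hij; simp
  · simp [Matrix.diagonal_apply_ne _ hij]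

/-- An element of the central ray is a scalar matrix. -/
theorem isScalarG_of_centralRay942 {z : G K} (hz : IsCentralRay z) : IsScalarG942 z := by
  obtain ⟨hfin, t, -, hinf⟩ := hz
  refine ⟨(z : Matrix (Fin 2) (Fin 2) (Adl K)) 0 0, ?_⟩
  have hf : ∀ (v : HeightOneSpectrum (𝓞 K)) (i j : Fin 2),
      ((z : Matrix (Fin 2) (Fin 2) (Adl K)) i j).2 v
        = (1 : Matrix (Fin 2) (Fin 2) (v.adicCompletion K)) i j := fun v i j =>
    congrFun (congrFun (hfin v) i) j
  have hi : ∀ (w : InfinitePlace K) (i j : Fin 2),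
      InfinitePlace.Completion.extensionEmbedding w
        (((z : Matrix (Fin 2) (Fin 2) (Adl K)) i j).1 w)
        = (Matrix.diagonal fun _ => (t : ℂ)) i j := fun w i j =>
    congrFun (congrFun (hinf w) i) j
  -- equality of adeles, componentwise
  have key : ∀ i j : Fin 2, (z : Matrix (Fin 2) (Fin 2) (Adl K)) i j
      = (Matrix.diagonal fun _ => (z : Matrix (Fin 2) (Fin 2) (Adl K)) 0 0) i j := by
    intro i j
    refine Prod.ext ?_ ?_
    · funext w
      apply (InfinitePlace.Completion.extensionEmbedding w).injective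
      by_cases hij : i = j
      · subst hij
        rw [Matrix.diagonal_apply_eq, hi w i i, hi w 0 0, Matrix.diagonal_apply_eq,
          Matrix.diagonal_apply_eq]
      · rw [Matrix.diagonal_apply_ne _ hij, hi w i j, Matrix.diagonal_apply_ne _ hij]
        exact (map_zero _).symm
    · apply Subtype.ext
      funext v
      by_cases hij : i = j
      · subst hij
        rw [Matrix.diagonal_apply_eq]
        show ((z : Matrix (Fin 2) (Fin 2) (Adl K)) i i).2 v
          = ((z : Matrix (Fin 2) (Fin 2) (Adl K)) 0 0).2 v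
        rw [hf v i i, hf v 0 0, Matrix.one_apply_eq, Matrix.one_apply_eq]
      · rw [Matrix.diagonal_apply_ne _ hij]
        show ((z : Matrix (Fin 2) (Fin 2) (Adl K)) i j).2 v = (0 : Adl K).2 v
        rw [hf v i j, Matrix.one_apply_ne hij]
        rfl
  ext i j
  exact key i j

/-- `N_n(y z) = N_n(y) · Z` with `Z` scalar, for `z` scalar. -/
theorem normG_mul_scalar942 (s : AdelicAut K) (y : G K) {z : G K} (hz : IsScalarG942 z)
    (n : ℕ) : ∃ Z : G K, IsScalarG942 Z ∧ normG942 s n (y * z) = normG942 s n y * Z := by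
  induction n with
  | zero => exact ⟨1, isScalarG_one942, by simp⟩
  | succ n ih =>
    obtain ⟨Z, hZ, hn⟩ := ih
    refine ⟨z * s.onG Z, hz.mul (hZ.onG s), ?_⟩
    rw [normG942_succ, hn, normG942_succ, map_mul]
    calc y * z * (s.onG (normG942 s n y) * s.onG Z)
        = y * (z * s.onG (normG942 s n y)) * s.onG Z := by group
      _ = y * (s.onG (normG942 s n y) * z) * s.onG Z := by rw [hz.commute]
      _ = y * s.onG (normG942 s n y) * (z * s.onG Z) := by group

/-- **The norm of `g = x⁻¹ δ σ(x) z`** (`z` on the central ray, `σ` of order `l`):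
`N_l(g) = x⁻¹ N_l(δ) x · Z` with `Z` scalar. -/
theorem normG_twisted942 (s : AdelicAut K) (l : ℕ) (k : Subfield K)
    (hc : IsCyclicOfDegree s l k) (x : G K) (δ : GL (Fin 2) K) {z : G K}
    (hz : IsCentralRay z) :
    ∃ Z : G K, IsScalarG942 Z ∧
      normG942 s l (x⁻¹ * ratG δ * s.onG x * z)
        = x⁻¹ * rat942 (s.normUpTo l δ) * x * Z := by
  obtain ⟨Z, hZ, h⟩ := normG_mul_scalar942 s (x⁻¹ * ratG δ * s.onG x)
    (isScalarG_of_centralRay942 hz) l
  refine ⟨Z, hZ, ?_⟩
  rw [h, normG_conj942, H415.onG_iterate415 s l k hc x]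
  rfl

/-! ## Continuity -/

theorem continuous_onG942 (s : AdelicAut K) : Continuous (s.onG : G K → G K) := by
  rw [Units.continuous_iff]
  constructor
  · refine continuous_matrix fun i j => ?_
    exact s.continuous_σA.comp (Continuous.matrix_elem Units.continuous_val i j)
  · refine continuous_matrix fun i j => ?_
    have h : (fun g : G K => ((s.onG g)⁻¹ : G K).val i j)
        = fun g : G K => s.σA (((g⁻¹ : G K) : Matrix (Fin 2) (Fin 2) (Adl K)) i j) := by
      funext g
      rw [← map_inv]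
      rfl
    exact h ▸ s.continuous_σA.comp
      ((Continuous.matrix_elem Units.continuous_val i j).comp continuous_inv)

theorem continuous_normG942 (s : AdelicAut K) (n : ℕ) : Continuous (normG942 s n) := by
  induction n with
  | zero => exact continuous_const
  | succ n ih => exact continuous_id.mul ((continuous_onG942 s).comp ih)

/-! ## The norm on `GL₂(K)` and `NormMap.lean` -/

theorem coe_onRat942 (s : AdelicAut K) (γ : GL (Fin 2) K) :
    (s.onRat γ : Matrix (Fin 2) (Fin 2) K) = sigMat s.σ (γ : Matrix (Fin 2) (Fin 2) K) := rfl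

theorem coe_normUpTo942 (s : AdelicAut K) (n : ℕ) (δ : GL (Fin 2) K) :
    (s.normUpTo n δ : Matrix (Fin 2) (Fin 2) K)
      = normMat s.σ n (δ : Matrix (Fin 2) (Fin 2) K) := by
  induction n with
  | zero => rfl
  | succ n ih =>
    rw [normUpTo_succ942, Units.val_mul, coe_onRat942, ih, normMat_succ']

theorem trace_normUpTo_fixed942 (s : AdelicAut K) (l : ℕ) (k : Subfield K)
    (hc : IsCyclicOfDegree s l k) (δ : GL (Fin 2) K) :
    s.σ (s.normUpTo l δ : Matrix (Fin 2) (Fin 2) K).trace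
      = (s.normUpTo l δ : Matrix (Fin 2) (Fin 2) K).trace := by
  rw [coe_normUpTo942]
  exact trace_normMat_fixed s.σ hc.pow_eq (δ := (δ : Matrix (Fin 2) (Fin 2) K))
    (δ' := ((δ⁻¹ : GL (Fin 2) K) : Matrix (Fin 2) (Fin 2) K))
    (by rw [← Units.val_mul, inv_mul_cancel, Units.val_one])
    (by rw [← Units.val_mul, mul_inv_cancel, Units.val_one])

theorem det_normUpTo_fixed942 (s : AdelicAut K) (l : ℕ) (k : Subfield K)
    (hc : IsCyclicOfDegree s l k) (δ : GL (Fin 2) K) :
    s.σ (s.normUpTo l δ : Matrix (Fin 2) (Fin 2) K).det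
      = (s.normUpTo l δ : Matrix (Fin 2) (Fin 2) K).det := by
  rw [coe_normUpTo942]
  exact det_normMat_fixed s.σ hc.pow_eq (δ := (δ : Matrix (Fin 2) (Fin 2) K))
    (δ' := ((δ⁻¹ : GL (Fin 2) K) : Matrix (Fin 2) (Fin 2) K))
    (by rw [← Units.val_mul, inv_mul_cancel, Units.val_one])

end Fermat.Agent.LT.T5.H942

end
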