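import Mathlib
import Fermat.Agent.LT.T5.Spec
import Fermat.Agent.LT.T5.H415.AutT5
import Fermat.Agent.LT.H942.AdelicComp
import Fermat.Agent.LT.H942.RegularLocal
import Fermat.Agent.LT.H942.RegularAdelic
import Fermat.Agent.LT.T5.H942.NormG

/-!
# Row LT, tower T5, leaf T5.09 (shadow by helper942) — part 2: local lemmas

OFF-MAIN.  Vocabulary as in `NormG.lean`.

* `InIwahori` (T5/Spec) is closed under products; `isIwahoriMat_of_inIwahori942`;
* `inIwahori_normG942` : `N_n(g)` is Iwahori at `o i` (`n ≤ i < l`) if `g` is Iwahori at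
  `o 1, …, o (l-1)`; `inIwahori_onG_normG942` : `σ(N_{l-1}(g))` is Iwahori at `o 0`;
* `agreeOutside_normG942` : `N_n` preserves agreement outside the orbit;
* `ratio_mul_scalar_fin942`, `ratio_mul_scalar_inf942` : the local invariants `‖tr‖² / ‖det‖` do
  not see a scalar factor;
* `isEllRegOver_of_no_root942` : a matrix with `σ`-fixed trace and determinant whose
  characteristic polynomial has no root in the fixed field `k` is `IsEllRegOver k`.
-/

set_option autoImplicit false

open IsDedekindDomain NumberField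

noncomputable section

namespace Fermat.Agent.LT.T5.H942

open Fermat.Agent.LT.H556.A0 Fermat.Agent.LT.T5 Fermat.Agent.LT.H942

variable {K : Type} [Field K] [NumberField K]

/-! ## Iwahori -/

theorem isIntegralAt_mul942 (w : HeightOneSpectrum (𝓞 K)) {a b : G K}
    (ha : IsIntegralAt w a) (hb : IsIntegralAt w b) : IsIntegralAt w (a * b) := by
  intro i j
  rw [finComp_mul942, Matrix.mul_apply]
  exact Subring.sum_mem _ fun l _ => Subring.mul_mem _ (ha i l) (hb l j)

theorem isIntegralAt_one942 (w : HeightOneSpectrum (𝓞 K)) : IsIntegralAt w (1 : G K) := by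
  intro i j
  rw [finComp_one942]
  by_cases h : i = j
  · subst h
    rw [Matrix.one_apply_eq]
    exact Subring.one_mem _
  · rw [Matrix.one_apply_ne h]
    exact Subring.zero_mem _

theorem inIwahori_one942 (w : HeightOneSpectrum (𝓞 K)) : InIwahori w (1 : G K) := by
  refine ⟨isIntegralAt_one942 w, by rw [inv_one]; exact isIntegralAt_one942 w, ?_⟩
  rw [finComp_one942, Matrix.one_apply_ne (by decide : (1 : Fin 2) ≠ 0), map_zero]
  exact zero_lt_one

theorem inIwahori_mul942 (w : HeightOneSpectrum (𝓞 K)) {a b : G K}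
    (ha : InIwahori w a) (hb : InIwahori w b) : InIwahori w (a * b) := by
  obtain ⟨ha1, ha2, ha3⟩ := ha
  obtain ⟨hb1, hb2, hb3⟩ := hb
  refine ⟨isIntegralAt_mul942 w ha1 hb1, ?_, ?_⟩
  · rw [mul_inv_rev]
    exact isIntegralAt_mul942 w hb2 ha2
  · rw [finComp_mul942, Matrix.mul_apply, Fin.sum_univ_two]
    have h1 : Valued.v (finComp w a 1 0 * finComp w b 0 0) < 1 := by
      rw [map_mul]
      calc Valued.v (finComp w a 1 0) * Valued.v (finComp w b 0 0)
          ≤ Valued.v (finComp w a 1 0) * 1 :=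
            mul_le_mul_right ((HeightOneSpectrum.mem_adicCompletionIntegers _ _ _).1 (hb1 0 0)) _
        _ = Valued.v (finComp w a 1 0) := mul_one _
        _ < 1 := ha3
    have h2 : Valued.v (finComp w a 1 1 * finComp w b 1 0) < 1 := by
      rw [map_mul]
      calc Valued.v (finComp w a 1 1) * Valued.v (finComp w b 1 0)
          ≤ 1 * Valued.v (finComp w b 1 0) :=
            mul_le_mul_left ((HeightOneSpectrum.mem_adicCompletionIntegers _ _ _).1 (ha1 1 1)) _
        _ = Valued.v (finComp w b 1 0) := one_mul _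
        _ < 1 := hb3
    exact lt_of_le_of_lt (Valuation.map_add _ _ _) (max_lt h1 h2)

theorem isIwahoriMat_of_inIwahori942 (w : HeightOneSpectrum (𝓞 K)) {a : G K}
    (ha : InIwahori w a) :
    IsIwahoriMat (Valued.v : Valuation (w.adicCompletion K) _) (finComp w a) where
  int := fun i j => (HeightOneSpectrum.mem_adicCompletionIntegers _ _ _).1 (ha.1 i j)
  low := ha.2.2
  det := valued_det_eq_one_of_integral942 w a ha.1 ha.2.1

/-- `N_n(g)` is Iwahori at `o i`, `n ≤ i < l`. -/
theorem inIwahori_normG942 (s : AdelicAut K) (l : ℕ) (o : ℕ → HeightOneSpectrum (𝓞 K))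
    (ho : ∀ j : ℕ, PlaceRel s (o j) (o (j + 1))) (g : G K)
    (hg : ∀ j : ℕ, 0 < j → j < l → InIwahori (o j) g) (n : ℕ) :
    ∀ i : ℕ, n ≤ i → i < l → InIwahori (o i) (normG942 s n g) := by
  induction n with
  | zero => exact fun i _ _ => inIwahori_one942 (o i)
  | succ n ih =>
    intro i hni hil
    rw [normG942_succ]
    refine inIwahori_mul942 (o i) (hg i (by omega) hil) ?_
    have hrel : PlaceRel s (o (i - 1)) (o i) := by
      have := ho (i - 1)
      rwa [Nat.sub_add_cancel (by omega)] at this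
    exact (H415.inIwahori_onG415 s (o (i - 1)) (o i) hrel _).2 (ih (i - 1) (by omega) (by omega))

/-- `σ(N_{l-1}(g))` is Iwahori at `o 0`. -/
theorem inIwahori_onG_normG942 (s : AdelicAut K) (l : ℕ) (k : Subfield K)
    (hc : IsCyclicOfDegree s l k) (o : ℕ → HeightOneSpectrum (𝓞 K))
    (ho : ∀ j : ℕ, PlaceRel s (o j) (o (j + 1))) (g : G K)
    (hg : ∀ j : ℕ, 0 < j → j < l → InIwahori (o j) g) :
    InIwahori (o 0) (s.onG (normG942 s (l - 1) g)) := by
  have hl := hc.pos
  rcases Nat.eq_or_lt_of_le (Nat.succ_le_of_lt hl) with h1 | h1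
  · -- `l = 1`
    have : l - 1 = 0 := by omega
    rw [this, normG942_zero, map_one]
    exact inIwahori_one942 (o 0)
  · have hrel : PlaceRel s (o (l - 1)) (o 0) := by
      have := ho (l - 1)
      rwa [Nat.sub_add_cancel hl, H415.orbit_period415 s l k hc o ho] at this
    exact (H415.inIwahori_onG415 s (o (l - 1)) (o 0) hrel _).2
      (inIwahori_normG942 s l o ho g hg (l - 1) (l - 1) le_rfl (by omega))

/-! ## Agreement outside the orbit -/

theorem agreeOutside_mul942 (O : Set (HeightOneSpectrum (𝓞 K))) {a a' b b' : G K}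
    (ha : AgreeOutside O a a') (hb : AgreeOutside O b b') : AgreeOutside O (a * b) (a' * b') := by
  refine ⟨fun w => ?_, fun v hv => ?_⟩
  · rw [infComp_mul942, infComp_mul942, ha.1 w, hb.1 w]
  · rw [finComp_mul942, finComp_mul942, ha.2 v hv, hb.2 v hv]

theorem agreeOutside_refl942 (O : Set (HeightOneSpectrum (𝓞 K))) (a : G K) :
    AgreeOutside O a a :=
  ⟨fun _ => rfl, fun _ _ => rfl⟩

theorem agreeOutside_normG942 (s : AdelicAut K) (l : ℕ) (k : Subfield K)
    (hc : IsCyclicOfDegree s l k) (o : ℕ → HeightOneSpectrum (𝓞 K))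
    (ho : ∀ j : ℕ, PlaceRel s (o j) (o (j + 1))) {g h : G K}
    (hgh : AgreeOutside {v | ∃ j < l, v = o j} g h) (n : ℕ) :
    AgreeOutside {v | ∃ j < l, v = o j} (normG942 s n g) (normG942 s n h) := by
  induction n with
  | zero => exact agreeOutside_refl942 _ _
  | succ n ih =>
    rw [normG942_succ, normG942_succ]
    exact agreeOutside_mul942 _ hgh
      (H415.agreeOutside_onG415 s _ (H415.orbit_closed415 s l k hc o ho) _ _ ih)

/-! ## Scalar factors -/

theorem finComp_scalar942 (v : HeightOneSpectrum (𝓞 K)) {Z : G K} (hZ : IsScalarG942 Z) :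
    ∃ c : v.adicCompletion K, c ≠ 0 ∧ finComp v Z = Matrix.diagonal fun _ => c := by
  obtain ⟨ζ, hζ⟩ := hZ
  have h : finComp v Z = Matrix.diagonal fun _ => finProj942 v ζ := by
    rw [finComp_eq_map942, hζ]
    refine Matrix.ext fun i j => ?_
    rw [Matrix.map_apply]
    by_cases hij : i = j
    · subst hij
      rw [Matrix.diagonal_apply_eq, Matrix.diagonal_apply_eq]
    · rw [Matrix.diagonal_apply_ne _ hij, Matrix.diagonal_apply_ne _ hij]
      exact map_zero (finProj942 v)
  refine ⟨finProj942 v ζ, ?_, h⟩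
  intro h0
  have hd := det_finComp_ne_zero942 v Z
  rw [h, Matrix.det_diagonal, h0] at hd
  simp at hd

theorem infComp_scalar942 (w : InfinitePlace K) {Z : G K} (hZ : IsScalarG942 Z) :
    ∃ c : ℂ, c ≠ 0 ∧ infComp w Z = Matrix.diagonal fun _ => c := by
  obtain ⟨ζ, hζ⟩ := hZ
  have h : infComp w Z = Matrix.diagonal fun _ => infProj942 w ζ := by
    rw [infComp_eq_map942, hζ]
    refine Matrix.ext fun i j => ?_
    rw [Matrix.map_apply]
    by_cases hij : i = j
    · subst hij
      rw [Matrix.diagonal_apply_eq, Matrix.diagonal_apply_eq]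
    · rw [Matrix.diagonal_apply_ne _ hij, Matrix.diagonal_apply_ne _ hij]
      exact map_zero (infProj942 w)
  refine ⟨infProj942 w ζ, ?_, h⟩
  intro h0
  have hd := det_infComp_ne_zero942 w Z
  rw [h, Matrix.det_diagonal, h0] at hd
  simp at hd

/-- `‖tr (A c)‖² / ‖det (A c)‖ = ‖tr A‖² / ‖det A‖` for a nonzero scalar `c` (any normed field). -/
theorem ratio_mul_diagonal942 {F : Type*} [NormedField F] (A : Matrix (Fin 2) (Fin 2) F)
    {c : F} (hc : c ≠ 0) :
    ‖(A * Matrix.diagonal fun _ => c).trace‖ ^ 2 / ‖(A * Matrix.diagonal fun _ => c).det‖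
      = ‖A.trace‖ ^ 2 / ‖A.det‖ := by
  have h1 : (A * Matrix.diagonal fun _ => c).trace = c * A.trace := by
    simp [Matrix.trace_fin_two, Matrix.mul_diagonal]
    ring
  have h2 : (A * Matrix.diagonal fun _ => c).det = c ^ 2 * A.det := by
    rw [Matrix.det_mul, Matrix.det_diagonal]
    simp
    ring
  rw [h1, h2, norm_mul, norm_mul, norm_pow, mul_pow]
  have hc' : ‖c‖ ^ 2 ≠ 0 := pow_ne_zero _ (norm_ne_zero_iff.2 hc)
  rw [mul_div_mul_left _ _ hc']

theorem ratio_mul_scalar_fin942 (v : HeightOneSpectrum (𝓞 K)) (a : G K) {Z : G K}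
    (hZ : IsScalarG942 Z) :
    ‖(finComp v (a * Z)).trace‖ ^ 2 / ‖(finComp v (a * Z)).det‖
      = ‖(finComp v a).trace‖ ^ 2 / ‖(finComp v a).det‖ := by
  obtain ⟨c, hc, h⟩ := finComp_scalar942 v hZ
  rw [finComp_mul942, h]
  exact ratio_mul_diagonal942 _ hc

theorem ratio_mul_scalar_inf942 (w : InfinitePlace K) (a : G K) {Z : G K}
    (hZ : IsScalarG942 Z) :
    ‖(infComp w (a * Z)).trace‖ ^ 2 / ‖(infComp w (a * Z)).det‖
      = ‖(infComp w a).trace‖ ^ 2 / ‖(infComp w a).det‖ := by
  obtain ⟨c, hc, h⟩ := infComp_scalar942 w hZ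
  rw [infComp_mul942, h]
  exact ratio_mul_diagonal942 _ hc

/-! ## Elliptic regular over the fixed field -/

open Polynomial in
/-- A matrix whose trace and determinant lie in the subfield `k` and whose characteristic
polynomial has no root in `k` is elliptic regular over `k`. -/
theorem isEllRegOver_of_no_root942 (k : Subfield K) (γ : GL (Fin 2) K)
    (τ d : k) (hτ : (τ : K) = (γ : Matrix (Fin 2) (Fin 2) K).trace)
    (hd : (d : K) = (γ : Matrix (Fin 2) (Fin 2) K).det)
    (hroot : ∀ x : k, x ^ 2 - τ * x + d ≠ 0) : IsEllRegOver k γ := by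
  refine ⟨X ^ 2 - C τ * X + C d, ?_, ?_⟩
  · have hdeg : (X ^ 2 - C τ * X + C d : k[X]).natDegree = 2 := by
      have : (X ^ 2 - C τ * X + C d : k[X]) = C 1 * X ^ 2 + C (-τ) * X + C d := by
        simp [sub_eq_add_neg]
      rw [this]
      exact natDegree_quadratic one_ne_zero
    have hmonic : (X ^ 2 - C τ * X + C d : k[X]).Monic := by
      have : (X ^ 2 - C τ * X + C d : k[X]) = X ^ 2 + (-(C τ * X) + C d) := by ring
      rw [this]
      refine monic_X_pow_add ?_
      refine lt_of_le_of_lt (degree_add_le _ _) (max_lt ?_ ?_)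
      · rw [degree_neg]
        refine lt_of_le_of_lt (degree_C_mul_X_le τ) ?_
        norm_num
      · exact lt_of_le_of_lt degree_C_le (by norm_num)
    rw [hmonic.irreducible_iff_roots_eq_zero_of_degree_le_three (by omega) (by omega)]
    refine Multiset.eq_zero_of_forall_notMem fun x hx => ?_
    have := (mem_roots'.1 hx).2
    apply hroot x
    simpa [IsRoot] using this
  · rw [Matrix.charpoly_fin_two, ← hτ, ← hd]
    simp [Polynomial.map_sub, Polynomial.map_add, Polynomial.map_mul, Polynomial.map_pow]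
    rfl

end Fermat.Agent.LT.T5.H942

end
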