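import Mathlib
import Fermat.Agent.LT.T5.Spec
import Fermat.Agent.LT.T5.H415.AutT5
import Fermat.Agent.LT.H942.AdelicComp
import Fermat.Agent.LT.H942.RegularLocal
import Fermat.Agent.LT.H942.RegularAdelic
import Fermat.Agent.LT.H942.CompactBounds
import Fermat.Agent.LT.H942.RegularOrbit
import Fermat.Agent.LT.T5.H942.NormG
import Fermat.Agent.LT.T5.H942.RegAux

/-!
# Row LT, tower T5, leaf T5.09 `RegularOfIwahori` — VERBATIM, UNCONDITIONAL (shadow by helper942)

OFF-MAIN.  `regularOfIwahori942 s l k : T5.RegularOfIwahori s l k` for EVERY `s : AdelicAut K`,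
`l`, `k` (so also for the frame of T4: `AdelicAut.id K`, `l = 1`, `k = ⊤`), against
`LT/T5/Spec.lean` v4 (helper32@eb7e4c138, sha256 f2d97e70, byte-identical copy; the
statement of T5.09 is unchanged since v2).

Proof (Flicker, *Regular trace formula and base change lifting*, §1; Langlands, *Base change for
GL(2)*, §4).  Let `g = x⁻¹ δ σ(x) z` be in the support, `γ = N(δ)`.
(a) `N(g) = g σ(g) ⋯ σ^{l-1}(g) = x⁻¹ γ x · Z`, `Z` scalar (`NormG.lean`; uses `σ_𝔸^l = 1`,
    helper415).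
(b) outside the orbit `N(g)` agrees with `N(h)`, `h ∈ C`, and `N(C)` is compact: the invariant
    `t = (tr γ)² / det γ` is integral outside `S ∪ O`, bounded by `B` on `S` and at the infinite
    places (`CompactBounds.lean`).
(c) at `o 0`: `σ^j(g)` is Iwahori for `0 < j < l`, so `N(g) ∈ I diag(c,1) I`, `|t| = |c|⁻¹`
    (`RegularLocal.lean`).
(d) `tr γ, det γ` are `σ`-fixed; if the characteristic polynomial had a root in `k`, then
    `t = r + 2 + r⁻¹` with `r ∈ kˣ`, the absolute values of `r` along the orbit are tied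
    together, and the product formula bounds `|t|_{o 0}` (`RegularOrbit.lean`): contradiction for
    `m ≥ m₀`.
-/

set_option autoImplicit false

open IsDedekindDomain NumberField

noncomputable section

namespace Fermat.Agent.LT.T5.H942

open Fermat.Agent.LT.H556.A0 Fermat.Agent.LT.T5 Fermat.Agent.LT.H942

variable {K : Type} [Field K] [NumberField K]

/-- The norm of an element of valuation `exp (-m)` is `ρ ^ m`, `0 < ρ < 1`. -/
theorem exists_norm_base942 (v : HeightOneSpectrum (𝓞 K)) :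
    ∃ ρ : ℝ, 0 < ρ ∧ ρ < 1 ∧ ∀ (c : v.adicCompletion K) (m : ℕ),
      Valued.v c = WithZero.exp (-(m : ℤ)) → ‖c‖ = ρ ^ m := by
  refine ⟨((WithZeroMulInt.toNNReal (HeightOneSpectrum.absNorm_ne_zero v)
    (WithZero.exp (-1 : ℤ)) : NNReal) : ℝ), ?_, ?_, ?_⟩
  · exact_mod_cast WithZeroMulInt.toNNReal_pos (HeightOneSpectrum.absNorm_ne_zero v)
      WithZero.exp_ne_zero
  · have h : (WithZero.exp (-1 : ℤ) : WithZero (Multiplicative ℤ)) < 1 := by
      rw [← WithZero.exp_zero, WithZero.exp_lt_exp]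
      norm_num
    exact_mod_cast (WithZeroMulInt.toNNReal_lt_one_iff
      (HeightOneSpectrum.one_lt_absNorm_nnreal v)).2 h
  · intro c m hc
    have e : (WithZero.exp (-(m : ℤ)) : WithZero (Multiplicative ℤ))
        = (WithZero.exp (-1 : ℤ)) ^ m := by
      rw [← WithZero.exp_nsmul]
      simp
    rw [FinitePlace.norm_def, hc, e, map_pow, NNReal.coe_pow]

/-- Valuations of a `σ`-fixed element along the orbit. -/
theorem valued_orbit942 (s : AdelicAut K) (o : ℕ → HeightOneSpectrum (𝓞 K))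
    (ho : ∀ j : ℕ, PlaceRel s (o j) (o (j + 1))) {y : K} (hy : s.σ y = y) (j : ℕ) :
    Valued.v ((algebraMap K (Adl K) y).2 (o j)) = Valued.v ((algebraMap K (Adl K) y).2 (o 0)) := by
  induction j with
  | zero => rfl
  | succ j ih =>
    have h := Fermat.Agent.LT.H415.valued_tau_fin415 s.σ (H415.hom415 s)
      (H415.continuous_hom415 s) (H415.compat_hom415 s) (H415.injective_hom415 s)
      (o j) (o (j + 1)) (ho j) (algebraMap K (Adl K) y)
    rw [H415.compat_hom415 s, hy] at h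
    rw [h, ih]

theorem one_lt_orbit942 (s : AdelicAut K) (o : ℕ → HeightOneSpectrum (𝓞 K))
    (ho : ∀ j : ℕ, PlaceRel s (o j) (o (j + 1))) {y : K} (hy : s.σ y = y) (j : ℕ)
    (h : 1 < FinitePlace.mk (o 0) y) : 1 ≤ FinitePlace.mk (o j) y := by
  have h0 : 1 < ‖(algebraMap K (Adl K) y).2 (o 0)‖ := h
  rw [Valued.toNormedField.one_lt_norm_iff, ← valued_orbit942 s o ho hy j,
    ← Valued.toNormedField.one_lt_norm_iff] at h0
  exact h0.le

theorem diag_eq942 {F : Type*} [Field F] (c : F) :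
    (!![c, 0; 0, 1] : Matrix (Fin 2) (Fin 2) F) = Matrix.diagonal ![c, 1] := by
  ext i j
  fin_cases i <;> fin_cases j <;> simp

/-- **T5.09 `RegularOfIwahori`, verbatim and unconditional.** -/
theorem regularOfIwahori942 (s : AdelicAut K) (l : ℕ) (k : Subfield K) :
    RegularOfIwahori s l k := by
  classical
  intro hc o C hC ho _hne
  have hl : 0 < l := hc.pos
  -- the compact set `N(C)` and its bounds
  have hC' : IsCompact (normG942 s l '' C) := hC.image (continuous_normG942 s l)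
  obtain ⟨S, B, hB, hSB⟩ := exists_bound_of_compact942 hC'
  set O : Finset (HeightOneSpectrum (𝓞 K)) := (Finset.range l).image o with hOdef
  have hOmem : ∀ v : HeightOneSpectrum (𝓞 K), v ∈ O ↔ ∃ j < l, v = o j := by
    intro v
    rw [hOdef, Finset.mem_image]
    constructor
    · rintro ⟨j, hj, rfl⟩
      exact ⟨j, Finset.mem_range.1 hj, rfl⟩
    · rintro ⟨j, hj, rfl⟩
      exact ⟨j, Finset.mem_range.2 hj, rfl⟩
  set M : ℝ := (B + 3) ^ (Module.finrank ℚ K + (S ∪ O).card) with hMdef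
  have hM1 : 1 ≤ M := one_le_pow₀ (by linarith)
  have hMpos : 0 < M := lt_of_lt_of_le one_pos hM1
  -- the threshold
  obtain ⟨ρ, hρ0, hρ1, hρ⟩ := exists_norm_base942 (o 0)
  obtain ⟨m₀, hm₀⟩ := exists_pow_lt_of_lt_one (inv_pos.2 hMpos) hρ1
  refine ⟨max m₀ 1, fun m hm φ hφ x δ z hz hne0 => ?_⟩
  have hm1 : 1 ≤ m := le_trans (le_max_right _ _) hm
  have hmm₀ : m₀ ≤ m := le_trans (le_max_left _ _) hm
  have hρm : ρ ^ m < M⁻¹ :=
    lt_of_le_of_lt (pow_le_pow_of_le_one hρ0.le hρ1.le hmm₀) hm₀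
  have hρm1 : ρ ^ m < 1 := pow_lt_one₀ hρ0.le hρ1 (by omega)
  -- the point of the support
  set g : G K := x⁻¹ * ratG δ * s.onG x * z with hgdef
  obtain ⟨⟨k₁, k₂, t', c, hk₁, hk₂, hcv, ht', hgc⟩, hiw, h, hhC, hagree⟩ := hφ g hne0
  have hcn : ‖c‖ = ρ ^ m := hρ c m hcv
  -- (a) the norm
  obtain ⟨Z, hZ, hN⟩ := normG_twisted942 s l k hc x δ hz
  set γ : GL (Fin 2) K := s.normUpTo l δ with hγdef
  set t : K := (γ : Matrix (Fin 2) (Fin 2) K).trace ^ 2 / (γ : Matrix (Fin 2) (Fin 2) K).det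
    with htdef
  have hfr : ∀ v : HeightOneSpectrum (𝓞 K), FinitePlace.mk v t =
      ‖(finComp v (normG942 s l g)).trace‖ ^ 2 / ‖(finComp v (normG942 s l g)).det‖ := by
    intro v
    rw [hN, ratio_mul_scalar_fin942 v _ hZ, ← finitePlace_ratio_eq942 v γ x]
  have hir : ∀ w : InfinitePlace K, w t =
      ‖(infComp w (normG942 s l g)).trace‖ ^ 2 / ‖(infComp w (normG942 s l g)).det‖ := by
    intro w
    rw [hN, ratio_mul_scalar_inf942 w _ hZ, ← infinitePlace_ratio_eq942 w γ x]
  -- (b) outside the orbit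
  have hag := agreeOutside_normG942 s l k hc o ho hagree l
  obtain ⟨hint, hbf, hbi⟩ := hSB (normG942 s l h) ⟨h, hhC, rfl⟩
  have hnotO : ∀ v : HeightOneSpectrum (𝓞 K), v ∉ O →
      v ∉ {v : HeightOneSpectrum (𝓞 K) | ∃ j < l, v = o j} := fun v hv hv' =>
    hv ((hOmem v).2 hv')
  have hout : ∀ v : HeightOneSpectrum (𝓞 K), v ∉ O → v ∉ S → FinitePlace.mk v t ≤ 1 := by
    intro v hvO hvS
    rw [hfr v, hag.2 v (hnotO v hvO), div_le_one (norm_det_finComp_pos942 v _)]
    exact regular_adelic_of_integral942 v _ (hint v hvS).1 (hint v hvS).2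
  have hSb : ∀ v ∈ S, v ∉ O → FinitePlace.mk v t ≤ B := by
    intro v _ hvO
    rw [hfr v, hag.2 v (hnotO v hvO), div_le_iff₀ (norm_det_finComp_pos942 v _)]
    exact hbf v
  have hinfb : ∀ w : InfinitePlace K, w t ≤ B := by
    intro w
    rw [hir w, hag.1 w, div_le_iff₀ (norm_det_infComp_pos942 w _)]
    exact hbi w
  -- (c) at `o 0`
  have hu : FinitePlace.mk (o 0) t = (ρ ^ m)⁻¹ := by
    have hsplit : normG942 s l g = g * s.onG (normG942 s (l - 1) g) := by
      have e : l = (l - 1) + 1 := by omega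
      conv_lhs => rw [e]
      rfl
    have hR := inIwahori_onG_normG942 s l k hc o ho g hiw
    have hk₂R : InIwahori (o 0) (k₂ * s.onG (normG942 s (l - 1) g)) :=
      inIwahori_mul942 (o 0) hk₂ hR
    have hcomp : finComp (o 0) (normG942 s l g)
        = finComp (o 0) k₁ * Matrix.diagonal ![c, 1]
          * finComp (o 0) (k₂ * s.onG (normG942 s (l - 1) g)) := by
      rw [hsplit, finComp_mul942, hgc, finComp_mul942, finComp_mul942, ht', diag_eq942,
        finComp_mul942, Matrix.mul_assoc]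
    have hc1 : ‖c‖ < 1 := by rw [hcn]; exact hρm1
    obtain ⟨htr, hdet⟩ := regular_adelic_of_iwahori942 (o 0) (normG942 s l g)
      (isIwahoriMat_of_inIwahori942 (o 0) hk₁) (isIwahoriMat_of_inIwahori942 (o 0) hk₂R)
      hc1 hcomp
    rw [hfr (o 0), htr, hdet, hcn]
    simp
  -- (d) the characteristic polynomial of `γ` has no root in `k`
  have hτσ := trace_normUpTo_fixed942 s l k hc δ
  have hdσ := det_normUpTo_fixed942 s l k hc δ
  have hτk : (γ : Matrix (Fin 2) (Fin 2) K).trace ∈ k := (hc.fixed _).2 hτσ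
  have hdk : (γ : Matrix (Fin 2) (Fin 2) K).det ∈ k := (hc.fixed _).2 hdσ
  have hd0 : (γ : Matrix (Fin 2) (Fin 2) K).det ≠ 0 := (Matrix.isUnits_det_units γ).ne_zero
  refine isEllRegOver_of_no_root942 k γ ⟨_, hτk⟩ ⟨_, hdk⟩ rfl rfl fun lam hlam => ?_
  -- a root `lam ∈ k`
  have hlamK : (lam : K) ^ 2 - (γ : Matrix (Fin 2) (Fin 2) K).trace * (lam : K)
      + (γ : Matrix (Fin 2) (Fin 2) K).det = 0 := by
    have := congrArg (Subtype.val : k → K) hlam
    simpa using this
  set τ : K := (γ : Matrix (Fin 2) (Fin 2) K).trace with hτdef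
  set d : K := (γ : Matrix (Fin 2) (Fin 2) K).det with hddef
  have hx0 : (lam : K) ≠ 0 := by
    intro h0
    apply hd0
    rw [h0] at hlamK
    simpa using hlamK
  have hprod : (lam : K) * (τ - lam) = d := by linear_combination -hlamK
  have hy0 : τ - (lam : K) ≠ 0 := by
    intro h0
    apply hd0
    rw [← hprod, h0, mul_zero]
  set r : K := (τ - lam) / lam with hrdef
  have hr0 : r ≠ 0 := div_ne_zero hy0 hx0
  have hrk : r ∈ k := k.div_mem (k.sub_mem hτk lam.2) lam.2
  have hrσ : s.σ r = r := (hc.fixed r).1 hrk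
  have hrσ' : s.σ r⁻¹ = r⁻¹ := by rw [map_inv₀, hrσ]
  have htr : t = r + 2 + r⁻¹ := by
    rw [htdef, ← hprod, hrdef]
    field_simp
    ring
  have hcore := orbit_regular_core942 (o 0) O S hB hr0
    (fun v hv => by
      obtain ⟨j, -, rfl⟩ := (hOmem v).1 hv
      exact ⟨one_lt_orbit942 s o ho hrσ j, one_lt_orbit942 s o ho hrσ' j⟩)
    (fun v hvO hvS => by rw [← htr]; exact hout v hvO hvS)
    (fun v hv hvO => by rw [← htr]; exact hSb v hv hvO)
    (fun w => by rw [← htr]; exact hinfb w)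
  rw [← htr, hu] at hcore
  -- `(ρ^m)⁻¹ ≤ M` contradicts `ρ^m < M⁻¹`
  have hρmpos : 0 < ρ ^ m := pow_pos hρ0 m
  have : M⁻¹ ≤ ρ ^ m := by
    rw [inv_le_comm₀ hMpos hρmpos]
    exact hcore
  exact absurd hρm (not_lt.2 this)

/-- The frame of T4. -/
theorem regularOfIwahori_id942 : RegularOfIwahori (AdelicAut.id K) 1 ⊤ :=
  regularOfIwahori942 _ _ _

end Fermat.Agent.LT.T5.H942

end
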